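import Fermat.Prelude.Def_CuspForm_IntegralLattice
import Fermat.Prelude.Def_FormalHecke_Eigensystem
import Fermat.Agent.HeckeDuality.DeligneSerre

/-!
# The data of `S46` from an integral cusp form which is an eigen form modulo three

`IsLatticeRealized` is a congruence modulo three, and a formal eigensystem can have arbitrary
values at the primes.
-/

set_option autoImplicit false

noncomputable section

namespace Fermat.Agent.Audit

open EisensteinWeightOne CongruenceSubgroup ModularFormClass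

variable {R : Type*} [CommRing R]

/-- The values at the powers of a prime of the eigensystem with given value at the prime. -/
def primePowSeq (e c : R) : ℕ → R
  | 0 => 1
  | 1 => c
  | (r + 2) => c * primePowSeq e c (r + 1) - e * primePowSeq e c r

/-- The eigensystem with prescribed values at the primes. -/
def ofPrimeValues (e c : ℕ → R) (n : ℕ) : R :=
  if n = 0 then 0 else n.factorization.prod fun ℓ r => primePowSeq (e ℓ) (c ℓ) r

theorem ofPrimeValues_prime (e c : ℕ → R) {ℓ : ℕ} (hℓ : ℓ.Prime) :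
    ofPrimeValues e c ℓ = c ℓ := by
  rw [ofPrimeValues, if_neg hℓ.ne_zero, hℓ.factorization,
    Finsupp.prod_single_index (h := fun ℓ r => primePowSeq (e ℓ) (c ℓ) r) rfl]
  rfl

theorem ofPrimeValues_split (e c : ℕ → R) {n : ℕ} (hn : n ≠ 0) (ℓ : ℕ) :
    ofPrimeValues e c n = primePowSeq (e ℓ) (c ℓ) (n.factorization ℓ) *
      (n.factorization.erase ℓ).prod fun q r => primePowSeq (e q) (c q) r := by
  rw [ofPrimeValues, if_neg hn]
  exact (Finsupp.mul_prod_erase' _ ℓ _ fun _ => rfl).symm

/-- A formal eigensystem can take any values at the primes. -/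
theorem isEigensystem_ofPrimeValues (e c : ℕ → R) :
    FormalHecke.IsEigensystem e (ofPrimeValues e c) := by
  refine ⟨by simp [ofPrimeValues], fun ℓ hℓ n => ?_⟩
  rcases eq_or_ne n 0 with rfl | hn
  · simp [ofPrimeValues]
  have hmul : ((ℓ * n).factorization.erase ℓ) = n.factorization.erase ℓ := by
    ext q
    rcases eq_or_ne q ℓ with rfl | hq
    · simp
    · simp [hq, Nat.factorization_mul hℓ.ne_zero hn, hℓ.factorization]
  have hval : (ℓ * n).factorization ℓ = n.factorization ℓ + 1 := by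
    simp [Nat.factorization_mul hℓ.ne_zero hn, hℓ.factorization, add_comm]
  rw [ofPrimeValues_prime e c hℓ, ofPrimeValues_split e c (mul_ne_zero hℓ.ne_zero hn) ℓ,
    ofPrimeValues_split e c hn ℓ, hmul, hval]
  by_cases hd : ℓ ∣ n
  · obtain ⟨m, rfl⟩ := hd
    have hm : m ≠ 0 := right_ne_zero_of_mul hn
    have hm1 : ((ℓ * m).factorization.erase ℓ) = m.factorization.erase ℓ := by
      ext q
      rcases eq_or_ne q ℓ with rfl | hq
      · simp
      · simp [hq, Nat.factorization_mul hℓ.ne_zero hm, hℓ.factorization]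
    have hv : (ℓ * m).factorization ℓ = m.factorization ℓ + 1 := by
      simp [Nat.factorization_mul hℓ.ne_zero hm, hℓ.factorization, add_comm]
    rw [if_pos (dvd_mul_right ℓ m), Nat.mul_div_cancel_left m hℓ.pos,
      ofPrimeValues_split e c hm ℓ, hm1, hv]
    simp only [primePowSeq]
    ring
  · rw [if_neg hd, Nat.factorization_eq_zero_of_not_dvd hd]
    simp only [primePowSeq]
    ring

/-- Realisation only needs a congruence with the coefficients of an integral form. -/
theorem isLatticeRealized_of_congr {N : ℕ} (f : CuspForm (Gamma0 N) 2) (b a : ℕ → ℤ)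
    (hb : ∀ n, (b n : ℂ) = qCoeff f n) (hab : ∀ n, (3 : ℤ) ∣ b n - a n) :
    CuspForm.IsLatticeRealized N a := by
  refine ⟨f, fun n => Subring.mem_bot.2 ⟨b n, hb n⟩, b, hb, fun n => ?_⟩
  have h := dvd_sub (hab n) (HeckeDuality.bridgeProduct_congr a n)
  rwa [sub_sub_sub_cancel_right] at h

/-- An integral form which satisfies the eigen relations modulo three realises a formal
eigensystem with the same values at the primes. -/
theorem exists_realised_of_eigen_mod_three (N : ℕ) (f : CuspForm (Gamma0 N) 2) (b : ℕ → ℤ)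
    (hb : ∀ n, (b n : ℂ) = qCoeff f n) (h0 : (3 : ℤ) ∣ b 0) (h1 : (3 : ℤ) ∣ b 1 - 1)
    (hrec : ∀ ℓ : ℕ, ℓ.Prime → ∀ n : ℕ, n ≠ 0 →
      (3 : ℤ) ∣ b (ℓ * n) + (if ℓ ∣ N then 0 else (chiNegThree ℓ : ℤ)) *
        (if ℓ ∣ n then b (n / ℓ) else 0) - b ℓ * b n) :
    ∃ a : ℕ → ℤ,
      FormalHecke.IsEigensystem (fun ℓ => if ℓ ∣ N then 0 else ((chiNegThree ℓ : ℤ) : ℤ)) a ∧
      CuspForm.IsLatticeRealized N a ∧ ∀ ℓ : ℕ, ℓ.Prime → a ℓ = b ℓ := by
  set e : ℕ → ℤ := fun ℓ => if ℓ ∣ N then 0 else ((chiNegThree ℓ : ℤ) : ℤ) with he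
  refine ⟨ofPrimeValues e b, isEigensystem_ofPrimeValues e b,
    isLatticeRealized_of_congr f b _ hb fun n => ?_, fun ℓ hℓ => ofPrimeValues_prime e b hℓ⟩
  induction n using Nat.strong_induction_on with
  | _ n ih =>
    rcases eq_or_ne n 0 with rfl | hn0
    · simpa [ofPrimeValues] using h0
    rcases eq_or_ne n 1 with rfl | hn1
    · simpa [ofPrimeValues] using h1
    obtain ⟨ℓ, hℓ, m, rfl⟩ := Nat.exists_prime_and_dvd hn1
    have hm : m ≠ 0 := right_ne_zero_of_mul hn0
    have hlt : m < ℓ * m := lt_mul_left (Nat.pos_of_ne_zero hm) hℓ.one_lt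
    have hr := hrec ℓ hℓ m hm
    have hs := (isEigensystem_ofPrimeValues e b).2 ℓ hℓ m
    rw [ofPrimeValues_prime e b hℓ] at hs
    have key : (3 : ℤ) ∣ (if ℓ ∣ m then b (m / ℓ) else 0) -
        (if ℓ ∣ m then ofPrimeValues e b (m / ℓ) else 0) := by
      split_ifs with hd
      · exact ih _ (lt_of_le_of_lt (Nat.div_le_self m ℓ) hlt)
      · simp
    change (3 : ℤ) ∣ b (ℓ * m) + e ℓ * (if ℓ ∣ m then b (m / ℓ) else 0) - b ℓ * b m at hr
    have heq : b (ℓ * m) - ofPrimeValues e b (ℓ * m) =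
        (b (ℓ * m) + e ℓ * (if ℓ ∣ m then b (m / ℓ) else 0) - b ℓ * b m) +
          b ℓ * (b m - ofPrimeValues e b m) -
          e ℓ * ((if ℓ ∣ m then b (m / ℓ) else 0) -
            (if ℓ ∣ m then ofPrimeValues e b (m / ℓ) else 0)) := by
      linear_combination (-1 : ℤ) * hs
    rw [heq]
    exact dvd_sub (dvd_add hr ((ih m hlt).mul_left _)) (key.mul_left _)

end Fermat.Agent.Audit

end
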