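import Fermat.Agent.Audit.Eigensystem
import Fermat.Agent.IntegralStructure.Main
import Fermat.Prelude.Def_FLTPrelim_ModularRep

/-!
# The conclusion of `S46` from an integral cusp form which is an eigen form modulo three
-/

set_option autoImplicit false

noncomputable section

namespace Fermat.Agent.Audit

open EisensteinWeightOne CongruenceSubgroup ModularFormClass

/-- Every level has an integral basis in weight two. -/
theorem hasIntegralBasis (N : ℕ) [NeZero N] : CuspForm.HasIntegralBasis N := by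
  have hset : CuspForm.qIntegralSet N =
      {f : CuspForm (Gamma0 N) 2 | ∀ n : ℕ, ∃ m : ℤ, qCoeff f n = (m : ℂ)} := by
    ext f
    simp only [CuspForm.qIntegralSet, Set.mem_setOf_eq, Subring.mem_bot, eq_comm]
  have h := IntegralStructure.hasIntegralStructure N 2
  unfold CuspForm.HasIntegralStructure CuspForm.intLattice at h
  rw [Submodule.span_span_of_tower] at h
  rw [CuspForm.HasIntegralBasis, hset]
  exact h

/-- The conclusion of `S46` for `W` from an integral form of cube-free level away from three. -/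
theorem exists_residualThree_data (W : WeierstrassCurve ℤ) (N : ℕ) [NeZero N]
    (hN : ∀ q : ℕ, q.Prime → q ≠ 3 → ¬ q ^ 3 ∣ N)
    (f : CuspForm (Gamma0 N) 2) (b : ℕ → ℤ)
    (hb : ∀ n, (b n : ℂ) = qCoeff f n) (h0 : (3 : ℤ) ∣ b 0) (h1 : (3 : ℤ) ∣ b 1 - 1)
    (hrec : ∀ ℓ : ℕ, ℓ.Prime → ∀ n : ℕ, n ≠ 0 →
      (3 : ℤ) ∣ b (ℓ * n) + (if ℓ ∣ N then 0 else (chiNegThree ℓ : ℤ)) *
        (if ℓ ∣ n then b (n / ℓ) else 0) - b ℓ * b n)
    (hW : ∀ ℓ : ℕ, ℓ.Prime → W.IsGoodPrimeFor ℓ → ¬ ℓ ∣ N → ℓ ≠ 3 →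
      (3 : ℤ) ∣ b ℓ - W.apOfModel ℓ) :
    ∃ (N : ℕ) (_ : NeZero N) (a : ℕ → ℤ),
      CuspForm.HasIntegralBasis N ∧
      FormalHecke.IsEigensystem
        (fun ℓ => if ℓ ∣ N then 0 else ((chiNegThree ℓ : ℤ) : ℤ)) a ∧
      CuspForm.IsLatticeRealized N a ∧
      (∀ q : ℕ, q.Prime → q ≠ 3 → ¬ q ^ 3 ∣ N) ∧
      ∀ ℓ : ℕ, ℓ.Prime → W.IsGoodPrimeFor ℓ → ¬ ℓ ∣ N → ℓ ≠ 3 →
        (3 : ℤ) ∣ (a ℓ - W.apOfModel ℓ) := by
  obtain ⟨a, ha, hr, hap⟩ := exists_realised_of_eigen_mod_three N f b hb h0 h1 hrec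
  exact ⟨N, ‹_›, a, hasIntegralBasis N, ha, hr, hN,
    fun ℓ hℓ hg hℓN h3 => by rw [hap ℓ hℓ]; exact hW ℓ hℓ hg hℓN h3⟩

end Fermat.Agent.Audit

end
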